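import Mathlib
import Fermat.Agent.LT.T7.H305.MatchSpec
import Fermat.Agent.LT.T1.H11.LocComp

/-!
# Row LT, tower T7, leaf T7.L2.1.C2.5a `TorHaarC305` (registry 2364) -- helper149

OFF-MAIN.  `torHaarC149 K : H305.TorHaarC305 K`, VERBATIM vs `LT/T7/H305/MatchSpec.lean`
(helper305@61757801e, sha256 541c6ac7), UNCONDITIONAL.

The twisted centraliser `T_𝔸(δ) = {x : x⁻¹ δ σ(x) = δ}` is the equaliser of two continuous maps
into the Hausdorff space `GL₂(𝔸_K)`, hence a closed subgroup of the locally compact group
`GL₂(𝔸_K)` (`T1.LocCompC`, closed by helper11: `locCompC_h11`), hence locally compact, and it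
carries the Haar measure of Mathlib for its Borel σ-algebra.
-/

set_option autoImplicit false
set_option linter.style.haveILetI false

open IsDedekindDomain NumberField MeasureTheory

noncomputable section

namespace Fermat.Agent.LT.T7.H149

open Fermat.Agent.LT.H556 Fermat.Agent.LT.H556.A0 Fermat.Agent.LT.T7

/-- The twisted centraliser of `δ` for a continuous endomorphism `s` of a Hausdorff topological
group is closed. -/
theorem isClosed_twCentSub149 {Γ : Type} [Group Γ] [TopologicalSpace Γ] [IsTopologicalGroup Γ]
    [T2Space Γ] (s : Γ →* Γ) (hs : Continuous s) (δ : Γ) :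
    IsClosed (Fermat.Agent.LT.T6.twCentSub s δ : Set Γ) := by
  have h : (Fermat.Agent.LT.T6.twCentSub s δ : Set Γ) = {x | x⁻¹ * δ * s x = δ} := rfl
  rw [h]
  exact isClosed_eq ((continuous_inv.mul continuous_const).mul hs) continuous_const

/-- A closed subgroup of a locally compact group has a Haar measure for its Borel
σ-algebra. -/
theorem exists_haar_of_isClosed149 {Γ : Type} [Group Γ] [TopologicalSpace Γ]
    [IsTopologicalGroup Γ] [LocallyCompactSpace Γ] (H : Subgroup Γ) (hH : IsClosed (H : Set Γ)) :
    ∃ μ : @Measure H (borel _), @Measure.IsHaarMeasure _ _ _ (borel _) μ := by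
  letI : MeasurableSpace H := borel H
  haveI : BorelSpace H := ⟨rfl⟩
  haveI : LocallyCompactSpace H := hH.isClosedEmbedding_subtypeVal.locallyCompactSpace
  exact ⟨Measure.haar, inferInstance⟩

/-- The automorphism of `GL₂(𝔸_K)` induced by an adelic automorphism is continuous. -/
theorem continuous_onG149 {K : Type} [Field K] [NumberField K] (s : T5.AdelicAut K) :
    Continuous (s.onG : G K → G K) := by
  have h : Continuous ((RingHom.mapMatrix (s.σA : Adl K →+* Adl K)).toMonoidHom :
      Matrix (Fin 2) (Fin 2) (Adl K) →* Matrix (Fin 2) (Fin 2) (Adl K)) := by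
    show Continuous fun M : Matrix (Fin 2) (Fin 2) (Adl K) => M.map (s.σA : Adl K →+* Adl K)
    exact Continuous.matrix_map continuous_id s.continuous_σA
  exact Continuous.units_map _ h

/-- **LEAF T7.L2.1.C2.5a = TOR-HAAR**, VERBATIM. -/
theorem torHaarC149 (K : Type) [Field K] [NumberField K] : H305.TorHaarC305 K := by
  intro s δ
  obtain ⟨-, hlc, ht2, -⟩ := Fermat.Agent.LT.T1.H11.locCompC_h11 K
  haveI : LocallyCompactSpace (G K) := hlc
  haveI : T2Space (G K) := ht2
  exact exists_haar_of_isClosed149 (H305.tA305 s δ)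
    (isClosed_twCentSub149 s.onG (continuous_onG149 s) (T5.ratG δ))

end Fermat.Agent.LT.T7.H149

end
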